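import Mathlib
import Fermat.Prelude.Def_AlgebraicCurve_Repartitions
import Fermat.Agent.S24.FFBasic

/-!
# Shared library RR (helper623): elementary dimension bounds for Riemann–Roch spaces

Prelude language (`AlgebraicCurve.Place`, `Divisor`, `riemannRochSpace`).

* `riemannRochSpace_mono`
* `resAt` : the "leading coefficient" map `L(D) → κ(v)`, `f ↦ (f * π ^ (D v)) mod 𝔪_v`
* `finite_add_single`, `finrank_add_single_le` : `ℓ(D + v) ≤ ℓ(D) + deg v`
* `degree_nonneg_of_nonneg`, `riemannRochSpace_eq_bot_of_degree_neg`
* `finiteDimensional_riemannRochSpace`, `finrank_riemannRochSpace_le` (`ℓ(D) ≤ deg D + 1`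
  over an algebraically closed constant field).
-/

set_option autoImplicit false

noncomputable section

namespace Fermat.Agent.Lib.RR.H623

open AlgebraicCurve Fermat.Agent.S24.FF

variable {K F : Type*} [Field K] [Field F] [Algebra K F]

/-! ### linear algebra -/

theorem finite_and_finrank_le_of_ker_le {V k : Type*} [AddCommGroup V] [Module K V]
    [AddCommGroup k] [Module K k]
    (W V' : Submodule K V) [FiniteDimensional K W] [FiniteDimensional K k]
    (φ : V' →ₗ[K] k) (hker : ∀ x : V', φ x = 0 → (x : V) ∈ W) :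
    FiniteDimensional K V' ∧ Module.finrank K V' ≤ Module.finrank K W + Module.finrank K k := by
  -- the kernel embeds into `W`
  let ι : LinearMap.ker φ →ₗ[K] W :=
    { toFun := fun x => ⟨((x : V') : V), hker x.1 x.2⟩
      map_add' := fun x y => rfl
      map_smul' := fun c x => rfl }
  have hι : Function.Injective ι := by
    intro x y h
    have h1 : ((x : V') : V) = ((y : V') : V) := congrArg (fun z : W => (z : V)) h
    exact Subtype.ext (Subtype.ext h1)
  have hkfin : FiniteDimensional K (LinearMap.ker φ) := Module.Finite.of_injective ι hι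
  have hqinj : Function.Injective ((LinearMap.ker φ).liftQ φ le_rfl) := by
    rw [← LinearMap.ker_eq_bot]
    exact Submodule.ker_liftQ_eq_bot _ _ _ le_rfl
  have hqfin : FiniteDimensional K (V' ⧸ LinearMap.ker φ) :=
    Module.Finite.of_injective _ hqinj
  have hfin : FiniteDimensional K V' := Module.Finite.of_submodule_quotient (LinearMap.ker φ)
  refine ⟨hfin, ?_⟩
  have h1 := LinearMap.finrank_range_add_finrank_ker φ
  have h2 : Module.finrank K (LinearMap.ker φ) ≤ Module.finrank K W :=
    LinearMap.finrank_le_finrank_of_injective hι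
  have h3 : Module.finrank K (LinearMap.range φ) ≤ Module.finrank K k :=
    Submodule.finrank_le _
  omega

/-! ### monotonicity -/

theorem riemannRochSpace_mono {D D' : Divisor K F} (h : D ≤ D') :
    riemannRochSpace D ≤ riemannRochSpace D' := fun _ hf v =>
  (hf v).trans (WithZero.exp_le_exp.mpr (Finsupp.le_def.mp h v))

theorem mem_riemannRochSpace_iff' {D : Divisor K F} {f : F} (hf : f ≠ 0) :
    f ∈ riemannRochSpace D ↔ ∀ v : Place K F, -D v ≤ v.ord f := by
  rw [mem_riemannRochSpace_iff]
  exact forall_congr' fun v => or_iff_right hf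

/-! ### the residue map -/

section ResAt

variable (v : Place K F)

theorem residue_smul (a : K) (x : v.toValuationSubring) :
    IsLocalRing.residue v.toValuationSubring (a • x) =
      a • IsLocalRing.residue v.toValuationSubring x := by
  rw [Algebra.smul_def, map_mul, Algebra.smul_def]
  rfl

theorem mul_mem_of_mem_riemannRochSpace {D : Divisor K F} {c : F} (hc0 : c ≠ 0)
    (hc : v.ord c = D v) {f : F} (hf : f ∈ riemannRochSpace D) :
    f * c ∈ v.toValuationSubring := by
  rcases eq_or_ne f 0 with rfl | hf0
  · simp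
  apply mem_of_ord_nonneg
  rw [v.ord_mul hf0 hc0, hc]
  have := (mem_riemannRochSpace_iff' hf0).mp hf v
  omega

/-- The map `L(D) → κ(v)`, `f ↦ (f * c) mod 𝔪_v`, where `ord_v c = D v`. -/
def resAt (D : Divisor K F) (c : F) (hc0 : c ≠ 0) (hc : v.ord c = D v) :
    riemannRochSpace D →ₗ[K] v.ResidueField where
  toFun f := IsLocalRing.residue v.toValuationSubring
    ⟨(f : F) * c, mul_mem_of_mem_riemannRochSpace v hc0 hc f.2⟩
  map_add' f g := by
    rw [← map_add]
    congr 1
    apply Subtype.ext
    simp [add_mul]
  map_smul' a f := by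
    rw [RingHom.id_apply, ← residue_smul]
    congr 1
    apply Subtype.ext
    simp [Algebra.smul_def, mul_assoc]

theorem resAt_eq_zero_iff (D : Divisor K F) (c : F) (hc0 : c ≠ 0) (hc : v.ord c = D v)
    (f : riemannRochSpace D) :
    resAt v D c hc0 hc f = 0 ↔ (f : F) = 0 ∨ -D v + 1 ≤ v.ord (f : F) := by
  unfold resAt
  simp only [LinearMap.coe_mk, AddHom.coe_mk]
  rw [IsLocalRing.residue_eq_zero_iff]
  rcases eq_or_ne (f : F) 0 with hf0 | hf0
  · have h0 : (⟨(f : F) * c, mul_mem_of_mem_riemannRochSpace v hc0 hc f.2⟩ :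
        v.toValuationSubring) = 0 := Subtype.ext (by simp [hf0])
    rw [h0]
    simp [hf0]
  · rw [or_iff_right hf0]
    have hfc : (f : F) * c ≠ 0 := mul_ne_zero hf0 hc0
    have h1 : (⟨(f : F) * c, mul_mem_of_mem_riemannRochSpace v hc0 hc f.2⟩ :
        v.toValuationSubring) ∈ IsLocalRing.maximalIdeal v.toValuationSubring ↔
        (f : F) * c ∈ v.toValuationSubring.nonunits := by
      rw [ValuationSubring.mem_nonunits_iff_exists_mem_maximalIdeal]
      constructor
      · intro h
        exact ⟨_, h⟩
      · rintro ⟨_, h⟩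
        exact h
    rw [h1, ← ord_pos_iff_mem_nonunits v hfc, v.ord_mul hf0 hc0, hc]
    constructor <;> intro h <;> omega

end ResAt

/-! ### adding one place -/

section AddSingle

variable (v : Place K F)

theorem exists_ord_eq (n : ℤ) : ∃ c : F, c ≠ 0 ∧ v.ord c = n := by
  obtain ⟨π, hπ, hπ1⟩ := exists_irreducible_coe v
  have hπF : (π : F) ≠ 0 := by
    simpa [ne_eq, ZeroMemClass.coe_eq_zero] using hπ.ne_zero
  refine ⟨(π : F) ^ n, zpow_ne_zero _ hπF, ?_⟩
  rw [v.ord_zpow, hπ1, mul_one]

theorem finite_and_finrank_add_single_le (D : Divisor K F) [v.FiniteResidue]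
    [FiniteDimensional K (riemannRochSpace D)] :
    FiniteDimensional K (riemannRochSpace (D + Finsupp.single v 1)) ∧
      Module.finrank K (riemannRochSpace (D + Finsupp.single v 1)) ≤
        Module.finrank K (riemannRochSpace D) + v.deg := by
  classical
  have : FiniteDimensional K v.ResidueField := Place.FiniteResidue.finite
  set D' : Divisor K F := D + Finsupp.single v 1 with hD'
  obtain ⟨c, hc0, hc⟩ := exists_ord_eq v (D' v)
  have hD'v : D' v = D v + 1 := by simp [hD']
  have hD'w : ∀ w : Place K F, w ≠ v → D' w = D w := by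
    intro w hw
    simp [hD', Ne.symm hw]
  refine finite_and_finrank_le_of_ker_le (riemannRochSpace D) (riemannRochSpace D')
    (resAt v D' c hc0 hc) ?_
  intro f hf
  rw [resAt_eq_zero_iff] at hf
  rw [mem_riemannRochSpace_iff]
  intro w
  rcases eq_or_ne ((f : F)) 0 with hf0 | hf0
  · exact Or.inl hf0
  right
  rcases hf with hf | hf
  · exact absurd hf hf0
  by_cases hw : w = v
  · subst hw
    omega
  · have := (mem_riemannRochSpace_iff' hf0).mp f.2 w
    rw [hD'w w hw] at this
    exact this

theorem finite_and_finrank_add_nsmul_single_le (D : Divisor K F) [v.FiniteResidue]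
    [FiniteDimensional K (riemannRochSpace D)] (n : ℕ) :
    FiniteDimensional K (riemannRochSpace (D + Finsupp.single v (n : ℤ))) ∧
      Module.finrank K (riemannRochSpace (D + Finsupp.single v (n : ℤ))) ≤
        Module.finrank K (riemannRochSpace D) + n * v.deg := by
  induction n with
  | zero =>
    have h0 : D + Finsupp.single v ((0 : ℕ) : ℤ) = D := by simp
    rw [h0]
    exact ⟨inferInstance, by simp⟩
  | succ n ih =>
    obtain ⟨h1, h2⟩ := ih
    have := h1
    have key := finite_and_finrank_add_single_le v (D + Finsupp.single v (n : ℤ))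
    have heq : D + Finsupp.single v (n : ℤ) + Finsupp.single v 1 =
        D + Finsupp.single v ((n + 1 : ℕ) : ℤ) := by
      rw [add_assoc, ← Finsupp.single_add]
      push_cast
      rfl
    rw [heq] at key
    refine ⟨key.1, key.2.trans ?_⟩
    rw [Nat.succ_mul]
    omega

end AddSingle

/-! ### degree -/

theorem degree_eq_sum (D : Divisor K F) :
    Divisor.degree D = D.sum fun v n => n * (v.deg : ℤ) := by
  unfold Divisor.degree
  rw [Finsupp.liftAddHom_apply]
  rfl

theorem degree_nonneg_of_nonneg {D : Divisor K F} (hD : ∀ v, 0 ≤ D v) :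
    0 ≤ Divisor.degree D := by
  rw [degree_eq_sum]
  exact Finset.sum_nonneg fun v _ => mul_nonneg (hD v) (Int.natCast_nonneg _)

theorem riemannRochSpace_eq_bot_of_degree_neg [HasPrincipalDivisors K F] {D : Divisor K F}
    (hD : Divisor.degree D < 0) : riemannRochSpace D = ⊥ := by
  rw [eq_bot_iff]
  intro f hf
  rw [Submodule.mem_bot]
  by_contra hf0
  obtain ⟨E, hE, hE0⟩ := HasPrincipalDivisors.exists_divisor (K := K) f hf0
  have h1 : 0 ≤ Divisor.degree (D + E) := by
    apply degree_nonneg_of_nonneg
    intro v
    have := (mem_riemannRochSpace_iff' hf0).mp hf v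
    rw [Finsupp.add_apply, hE v]
    omega
  rw [map_add, hE0, add_zero] at h1
  omega

theorem finiteDimensional_bot_aux (D : Divisor K F) (h : riemannRochSpace D = ⊥) :
    FiniteDimensional K (riemannRochSpace D) := by
  rw [h]
  infer_instance

/-- For `v` a place with finite residue field, every `L(D)` is finite dimensional, with
`ℓ(D) ≤ n * deg v` as soon as `deg D < n * deg v`. -/
theorem finite_and_finrank_le_of_degree_lt [HasPrincipalDivisors K F] (v : Place K F)
    [v.FiniteResidue] (D : Divisor K F) (n : ℕ) (hn : Divisor.degree D < n * v.deg) :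
    FiniteDimensional K (riemannRochSpace D) ∧
      Module.finrank K (riemannRochSpace D) ≤ n * v.deg := by
  set D₀ : Divisor K F := D - Finsupp.single v (n : ℤ) with hD₀
  have hdeg : Divisor.degree D₀ < 0 := by
    rw [hD₀, map_sub, Divisor.degree_single]
    omega
  have hbot := riemannRochSpace_eq_bot_of_degree_neg hdeg
  have := finiteDimensional_bot_aux D₀ hbot
  have key := finite_and_finrank_add_nsmul_single_le v D₀ n
  have heq : D₀ + Finsupp.single v (n : ℤ) = D := by
    rw [hD₀, sub_add_cancel]
  rw [heq] at key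
  refine ⟨key.1, key.2.trans ?_⟩
  rw [hbot, finrank_bot]
  omega

theorem deg_pos (v : Place K F) [v.FiniteResidue] : 0 < v.deg := by
  have : FiniteDimensional K v.ResidueField := Place.FiniteResidue.finite
  exact Module.finrank_pos

theorem finiteDimensional_riemannRochSpace [HasPrincipalDivisors K F] (v : Place K F)
    [v.FiniteResidue] (D : Divisor K F) : FiniteDimensional K (riemannRochSpace D) := by
  have hpos := deg_pos v
  obtain ⟨n, hn⟩ : ∃ n : ℕ, Divisor.degree D < n * v.deg := by
    refine ⟨(Divisor.degree D).toNat + 1, ?_⟩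
    have h1 : Divisor.degree D ≤ ((Divisor.degree D).toNat : ℤ) := Int.self_le_toNat _
    have h2 : (((Divisor.degree D).toNat + 1 : ℕ) : ℤ) ≤
        (((Divisor.degree D).toNat + 1 : ℕ) : ℤ) * (v.deg : ℤ) := by
      have : (1 : ℤ) ≤ (v.deg : ℤ) := by exact_mod_cast hpos
      nlinarith [Int.natCast_nonneg ((Divisor.degree D).toNat + 1)]
    push_cast at h2 ⊢
    omega
  exact (finite_and_finrank_le_of_degree_lt v D n hn).1

/-- `ℓ(D) ≤ deg D + 1` when there is a place of degree one (e.g. `K` algebraically closed). -/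
theorem finrank_riemannRochSpace_le [HasPrincipalDivisors K F] (v : Place K F)
    [v.FiniteResidue] (hv : v.deg = 1) (D : Divisor K F) (hD : -1 ≤ Divisor.degree D) :
    (Module.finrank K (riemannRochSpace D) : ℤ) ≤ Divisor.degree D + 1 := by
  obtain ⟨n, hn⟩ : ∃ n : ℕ, (n : ℤ) = Divisor.degree D + 1 :=
    ⟨(Divisor.degree D + 1).toNat, Int.toNat_of_nonneg (by omega)⟩
  have key := (finite_and_finrank_le_of_degree_lt v D n (by rw [hv]; omega)).2
  rw [hv, mul_one] at key
  omega

end Fermat.Agent.Lib.RR.H623
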