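import Mathlib
import Fermat.Agent.Lib.RR.H623.WeakApprox

/-!
# Shared library RR (helper623): layer L2 — zeros and poles of `x` versus `[F : K(x)]`

Stichtenoth 1.3.3.  For finitely many zeros `v ∈ S` of `x`, `∑ ord_v x ≤ [F : K(x)]`, and the
same for poles.  No hypothesis on the degrees of the places is needed for this inequality.

* `ord_add_eq_of_big`, `sum_ne_zero_of_unique_min` : a sum with a unique term of minimal order
* `ord_aeval_of_ord_pos`, `ord_aeval_of_ord_neg` : order of a polynomial in `x` at a zero / pole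
* `exists_ord_eq_mul_of_mem_adjoin` : `ord_v φ = n * ord_v x` for `φ ∈ K(x)`
* `sum_le_finrank_of_adic` : abstract inequality
* `sum_ord_le_finrank'`, `sum_neg_ord_le_finrank'`
-/

set_option autoImplicit false

noncomputable section

namespace Fermat.Agent.Lib.RR.H623

open AlgebraicCurve Fermat.Agent.S24.H117 Polynomial

variable {K F : Type*} [Field K] [Field F] [Algebra K F]

/-! ### sums with a unique term of minimal order -/

theorem ord_add_eq_of_big (v : Place K F) {f g : F} (h0 : f ≠ 0)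
    (hg : Big v (v.ord f + 1) g) : f + g ≠ 0 ∧ v.ord (f + g) = v.ord f := by
  rcases eq_or_ne g 0 with rfl | hg0
  · rw [add_zero]; exact ⟨h0, rfl⟩
  have hlt : v.ord f < v.ord g := by have := hg.le_ord hg0; omega
  refine ⟨?_, ord_add_eq_of_lt v hlt h0⟩
  intro h
  have hgf : g = -f := eq_neg_of_add_eq_zero_right h
  rw [hgf, ord_neg] at hlt
  exact lt_irrefl _ hlt

theorem sum_ne_zero_of_unique_min (v : Place K F) {ι : Type*} (t : Finset ι) (φ : ι → F)
    (i₀ : ι) (hi₀ : i₀ ∈ t) (h0 : φ i₀ ≠ 0)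
    (h : ∀ i ∈ t, i ≠ i₀ → Big v (v.ord (φ i₀) + 1) (φ i)) :
    ∑ i ∈ t, φ i ≠ 0 ∧ v.ord (∑ i ∈ t, φ i) = v.ord (φ i₀) := by
  classical
  rw [← Finset.add_sum_erase t φ hi₀]
  apply ord_add_eq_of_big v h0
  exact Big.sum _ _ fun i hi => h i (Finset.mem_of_mem_erase hi) (Finset.ne_of_mem_erase hi)

/-! ### polynomials in `x` -/

theorem ord_monomial_term (v : Place K F) (x : F) (hx : x ≠ 0) {c : K} (hc : c ≠ 0) (i : ℕ) :
    c • x ^ i ≠ 0 ∧ v.ord (c • x ^ i) = i * v.ord x := by
  have hc' : algebraMap K F c ≠ 0 := by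
    simpa using hc
  rw [Algebra.smul_def]
  refine ⟨mul_ne_zero hc' (pow_ne_zero _ hx), ?_⟩
  rw [v.ord_mul hc' (pow_ne_zero _ hx), ord_algebraMap, ord_pow, zero_add]

/-- At a zero of `x`, `ord_v p(x) = (trailing degree of p) * ord_v x`. -/
theorem ord_aeval_of_ord_pos (v : Place K F) {x : F} (hx : 0 < v.ord x) (p : K[X])
    (hp : p ≠ 0) :
    aeval x p ≠ 0 ∧ v.ord (aeval x p) = p.natTrailingDegree * v.ord x := by
  have hx0 : x ≠ 0 := ne_zero_of_ord_ne_zero v hx.ne'
  have hc : p.coeff p.natTrailingDegree ≠ 0 := trailingCoeff_nonzero_iff_nonzero.mpr hp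
  obtain ⟨h1, h2⟩ := ord_monomial_term v x hx0 hc p.natTrailingDegree
  rw [aeval_eq_sum_range]
  have key := sum_ne_zero_of_unique_min v (Finset.range (p.natDegree + 1))
    (fun i => p.coeff i • x ^ i) p.natTrailingDegree
    (Finset.mem_range.mpr (Nat.lt_succ_of_le (natTrailingDegree_le_natDegree p))) h1 ?_
  · rw [h2] at key
    exact key
  intro i _ hi
  rcases eq_or_ne (p.coeff i) 0 with hci | hci
  · simp only [hci, zero_smul]
    exact Big.zero _ _
  · obtain ⟨_, h4⟩ := ord_monomial_term v x hx0 hci i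
    apply Big.of_le
    rw [h2, h4]
    have hlt : p.natTrailingDegree < i := by
      rcases lt_or_gt_of_ne hi with h | h
      · exact absurd (coeff_eq_zero_of_lt_natTrailingDegree h) hci
      · exact h
    have : ((p.natTrailingDegree : ℤ) + 1) ≤ i := by exact_mod_cast hlt
    nlinarith

/-- At a pole of `x`, `ord_v p(x) = (degree of p) * ord_v x`. -/
theorem ord_aeval_of_ord_neg (v : Place K F) {x : F} (hx : v.ord x < 0) (p : K[X])
    (hp : p ≠ 0) :
    aeval x p ≠ 0 ∧ v.ord (aeval x p) = p.natDegree * v.ord x := by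
  have hx0 : x ≠ 0 := ne_zero_of_ord_ne_zero v hx.ne
  have hc : p.coeff p.natDegree ≠ 0 := leadingCoeff_ne_zero.mpr hp
  obtain ⟨h1, h2⟩ := ord_monomial_term v x hx0 hc p.natDegree
  rw [aeval_eq_sum_range]
  have key := sum_ne_zero_of_unique_min v (Finset.range (p.natDegree + 1))
    (fun i => p.coeff i • x ^ i) p.natDegree
    (Finset.mem_range.mpr (Nat.lt_succ_self _)) h1 ?_
  · rw [h2] at key
    exact key
  intro i hi hne
  rcases eq_or_ne (p.coeff i) 0 with hci | hci
  · simp only [hci, zero_smul]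
    exact Big.zero _ _
  · obtain ⟨_, h4⟩ := ord_monomial_term v x hx0 hci i
    apply Big.of_le
    rw [h2, h4]
    have hlt : i < p.natDegree := by
      have := Finset.mem_range.mp hi
      omega
    have : ((i : ℤ) + 1) ≤ p.natDegree := by exact_mod_cast hlt
    nlinarith

/-- The order of an element of `K(x)` at a zero (pole) of `x` is a multiple of `ord_v x`, with
a multiplier independent of the zero (pole). -/
theorem exists_ord_eq_mul_of_mem_adjoin (x : F) {φ : F}
    (hφ : φ ∈ IntermediateField.adjoin K {x}) (hφ0 : φ ≠ 0) :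
    ∃ n m : ℤ, (∀ v : Place K F, 0 < v.ord x → v.ord φ = n * v.ord x) ∧
      (∀ v : Place K F, v.ord x < 0 → v.ord φ = m * v.ord x) := by
  obtain ⟨r, s, rfl⟩ := (IntermediateField.mem_adjoin_simple_iff K φ).mp hφ
  have hr : aeval x r ≠ 0 := by
    intro h
    rw [h, zero_div] at hφ0
    exact hφ0 rfl
  have hs : aeval x s ≠ 0 := by
    intro h
    rw [h, div_zero] at hφ0
    exact hφ0 rfl
  have hr0 : r ≠ 0 := by
    rintro rfl
    simp at hr
  have hs0 : s ≠ 0 := by
    rintro rfl
    simp at hs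
  refine ⟨(r.natTrailingDegree : ℤ) - s.natTrailingDegree, (r.natDegree : ℤ) - s.natDegree,
    fun v hv => ?_, fun v hv => ?_⟩
  · rw [ord_div v hr hs, (ord_aeval_of_ord_pos v hv r hr0).2, (ord_aeval_of_ord_pos v hv s hs0).2]
    ring
  · rw [ord_div v hr hs, (ord_aeval_of_ord_neg v hv r hr0).2, (ord_aeval_of_ord_neg v hv s hs0).2]
    ring

/-! ### the abstract inequality -/

theorem eq_of_mul_add_eq {e n n' a a' : ℤ} (ha : 0 ≤ a) (ha' : a < e) (hb : 0 ≤ a')
    (hb' : a' < e) (h : n * e + a = n' * e + a') : a = a' := by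
  have h1 : (n * e + a) % e = a := by
    rw [add_comm, Int.add_mul_emod_self_right]
    exact Int.emod_eq_of_lt ha ha'
  have h2 : (n' * e + a') % e = a' := by
    rw [add_comm, Int.add_mul_emod_self_right]
    exact Int.emod_eq_of_lt hb hb'
  rw [← h1, ← h2, h]

/-- **Abstract L2.**  Let `L` be a subfield of `F` over which `F` is finite, `S` a finite set of
places and `e v > 0` integers such that the order at `v ∈ S` of every nonzero element of `L` is
`n * e v` with `n` independent of `v`.  Then `∑_{v ∈ S} e v ≤ [F : L]`. -/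
theorem sum_le_finrank_of_adic (L : IntermediateField K F) [FiniteDimensional L F]
    (S : Finset (Place K F)) (e : Place K F → ℤ) (he : ∀ v ∈ S, 0 < e v)
    (hL : ∀ φ : F, φ ∈ L → φ ≠ 0 → ∃ n : ℤ, ∀ v ∈ S, v.ord φ = n * e v) :
    ∑ v ∈ S, e v ≤ (Module.finrank L F : ℤ) := by
  classical
  set E : ℤ := ∑ v ∈ S, e v with hE
  have hEge : ∀ v ∈ S, e v ≤ E := fun v hv =>
    Finset.single_le_sum (f := e) (fun w hw => (he w hw).le) hv
  -- the index set
  set T : Finset ((_ : Place K F) × ℕ) := S.sigma fun v => Finset.range (e v).toNat with hT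
  have hTcard : (T.card : ℤ) = E := by
    rw [hT, Finset.card_sigma, hE]
    push_cast
    refine Finset.sum_congr rfl fun v hv => ?_
    rw [Finset.card_range]
    exact Int.toNat_of_nonneg (he v hv).le
  -- the elements
  have hex : ∀ i : (_ : Place K F) × ℕ, ∃ z : F, ∀ w ∈ S,
      z ≠ 0 ∧ w.ord z = if w = i.1 then (i.2 : ℤ) else E := by
    intro i
    obtain ⟨z, hz⟩ := weak_approximation S (fun _ => (0 : F))
      (fun w => if w = i.1 then (i.2 : ℤ) else E)
    refine ⟨z, fun w hw => ?_⟩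
    have := hz w hw
    simpa using this
  choose b hb using hex
  have hlin : LinearIndependent L (fun i : T => b i.1) := by
    rw [Fintype.linearIndependent_iff]
    intro g hg
    by_contra hcon
    push Not at hcon
    obtain ⟨j, hj⟩ := hcon
    -- the multipliers
    have hnex : ∀ i : T, ∃ n : ℤ, g i ≠ 0 → ∀ v ∈ S, v.ord ((g i : L) : F) = n * e v := by
      intro i
      by_cases hgi : g i = 0
      · exact ⟨0, fun h => absurd hgi h⟩
      · obtain ⟨n, hn⟩ := hL (g i : F) (g i).2 (by simpa using hgi)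
        exact ⟨n, fun _ => hn⟩
    choose n hn using hnex
    set J : Finset T := Finset.univ.filter fun i => g i ≠ 0 with hJ
    have hJne : J.Nonempty := ⟨j, by simp [hJ, hj]⟩
    obtain ⟨i₁, hi₁J, hi₁min⟩ := Finset.exists_min_image J n hJne
    set v₀ : Place K F := i₁.1.1 with hv₀
    have hv₀S : v₀ ∈ S := (Finset.mem_sigma.mp i₁.2).1
    have he₀ : 0 < e v₀ := he v₀ hv₀S
    have hmemT : ∀ i : T, i.1.1 ∈ S ∧ (i.1.2 : ℤ) < e i.1.1 := by
      intro i
      have h1 := Finset.mem_sigma.mp i.2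
      refine ⟨h1.1, ?_⟩
      have h2 := Finset.mem_range.mp h1.2
      have h3 := he _ h1.1
      omega
    set Jf : Finset T := J.filter fun i => i.1.1 = v₀ with hJf
    have hJfne : Jf.Nonempty := ⟨i₁, by simp [hJf, hi₁J, hv₀]⟩
    obtain ⟨i₀, hi₀Jf, hi₀min⟩ :=
      Finset.exists_min_image Jf (fun i => n i * e v₀ + (i.1.2 : ℤ)) hJfne
    have hi₀J : i₀ ∈ J := (Finset.mem_filter.mp hi₀Jf).1
    have hi₀v : i₀.1.1 = v₀ := (Finset.mem_filter.mp hi₀Jf).2
    have hgJ : ∀ i : T, i ∈ J → g i ≠ 0 := fun i hi => (Finset.mem_filter.mp hi).2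
    -- order of a term at `v₀`
    have hordterm : ∀ i : T, i ∈ J → ((g i : L) : F) * b i.1 ≠ 0 ∧
        v₀.ord (((g i : L) : F) * b i.1) =
          n i * e v₀ + (if v₀ = i.1.1 then (i.1.2 : ℤ) else E) := by
      intro i hi
      have hg0 : ((g i : L) : F) ≠ 0 := by simpa using hgJ i hi
      obtain ⟨hb0, hbord⟩ := hb i.1 v₀ hv₀S
      refine ⟨mul_ne_zero hg0 hb0, ?_⟩
      rw [v₀.ord_mul hg0 hb0, hn i (hgJ i hi) v₀ hv₀S, hbord]
    obtain ⟨hφ0, hφord⟩ := hordterm i₀ hi₀J
    rw [if_pos hi₀v.symm] at hφord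
    have key := sum_ne_zero_of_unique_min v₀ (Finset.univ : Finset T)
      (fun i => ((g i : L) : F) * b i.1) i₀ (Finset.mem_univ _) hφ0 ?_
    · apply key.1
      rw [← hg]
      refine Finset.sum_congr rfl fun i _ => ?_
      rw [IntermediateField.smul_def, smul_eq_mul]
    intro i _ hne
    by_cases hgi : g i = 0
    · simp only [hgi, ZeroMemClass.coe_zero, zero_mul]
      exact Big.zero _ _
    have hiJ : i ∈ J := Finset.mem_filter.mpr ⟨Finset.mem_univ _, hgi⟩
    obtain ⟨_, hiord⟩ := hordterm i hiJ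
    apply Big.of_le
    rw [hφord, hiord]
    by_cases hiv : v₀ = i.1.1
    · rw [if_pos hiv]
      have hiJf : i ∈ Jf := Finset.mem_filter.mpr ⟨hiJ, hiv.symm⟩
      have hle := hi₀min i hiJf
      have hneq : n i₀ * e v₀ + (i₀.1.2 : ℤ) ≠ n i * e v₀ + (i.1.2 : ℤ) := by
        intro heq
        have h1 := hmemT i₀
        have h2 := hmemT i
        rw [hi₀v] at h1
        rw [← hiv] at h2
        have h3 : (i₀.1.2 : ℤ) = (i.1.2 : ℤ) :=
          eq_of_mul_add_eq (Int.natCast_nonneg _) h1.2 (Int.natCast_nonneg _) h2.2 heq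
        apply hne
        apply Subtype.ext
        apply Sigma.ext
        · rw [hi₀v, ← hiv]
        · exact heq_of_eq (by exact_mod_cast h3.symm)
      omega
    · rw [if_neg hiv]
      have h1 : n i₁ ≤ n i := hi₁min i hiJ
      have h2 : n i₁ * e v₀ ≤ n i * e v₀ := mul_le_mul_of_nonneg_right h1 he₀.le
      have h3 := hi₀min i₁ (Finset.mem_filter.mpr ⟨hi₁J, rfl⟩)
      have h4 := (hmemT i₁).2
      rw [← hv₀] at h4
      have h5 := hEge v₀ hv₀S
      omega
  have hcard := hlin.fintype_card_le_finrank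
  rw [Fintype.card_coe] at hcard
  rw [← hTcard]
  exact_mod_cast hcard

/-! ### zeros and poles -/

/-- **L2** (zeros). -/
theorem sum_ord_le_finrank' (x : F) [FiniteDimensional (IntermediateField.adjoin K {x}) F]
    (S : Finset (Place K F)) (hS : ∀ v ∈ S, 0 < v.ord x) :
    ∑ v ∈ S, v.ord x ≤ (Module.finrank (IntermediateField.adjoin K {x}) F : ℤ) := by
  refine sum_le_finrank_of_adic (IntermediateField.adjoin K {x}) S (fun v => v.ord x) hS ?_
  intro φ hφ hφ0
  obtain ⟨n, _, hn, _⟩ := exists_ord_eq_mul_of_mem_adjoin x hφ hφ0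
  exact ⟨n, fun v hv => hn v (hS v hv)⟩

/-- **L2** (poles). -/
theorem sum_neg_ord_le_finrank' (x : F) [FiniteDimensional (IntermediateField.adjoin K {x}) F]
    (S : Finset (Place K F)) (hS : ∀ v ∈ S, v.ord x < 0) :
    ∑ v ∈ S, -v.ord x ≤ (Module.finrank (IntermediateField.adjoin K {x}) F : ℤ) := by
  refine sum_le_finrank_of_adic (IntermediateField.adjoin K {x}) S (fun v => -v.ord x)
    (fun v hv => by have := hS v hv; omega) ?_
  intro φ hφ hφ0
  obtain ⟨_, m, _, hm⟩ := exists_ord_eq_mul_of_mem_adjoin x hφ hφ0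
  exact ⟨-m, fun v hv => by rw [hm v (hS v hv)]; ring⟩

/-- **L2** (zeros), exact statement of the RR skeleton (`Fermat/Agent/Lib/RR/Zeros.lean`). -/
theorem sum_ord_le_finrank (_hdeg : ∀ v : Place K F, v.deg = 1) (x : F)
    [FiniteDimensional (IntermediateField.adjoin K {x}) F]
    (S : Finset (Place K F)) (hS : ∀ v ∈ S, 0 < v.ord x) :
    ∑ v ∈ S, v.ord x ≤ (Module.finrank (IntermediateField.adjoin K {x}) F : ℤ) :=
  sum_ord_le_finrank' x S hS

/-- **L2** (poles), exact statement of the RR skeleton (`Fermat/Agent/Lib/RR/Zeros.lean`). -/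
theorem sum_neg_ord_le_finrank (_hdeg : ∀ v : Place K F, v.deg = 1) (x : F)
    [FiniteDimensional (IntermediateField.adjoin K {x}) F]
    (S : Finset (Place K F)) (hS : ∀ v ∈ S, v.ord x < 0) :
    ∑ v ∈ S, -v.ord x ≤ (Module.finrank (IntermediateField.adjoin K {x}) F : ℤ) :=
  sum_neg_ord_le_finrank' x S hS

end Fermat.Agent.Lib.RR.H623
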